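import Fermat.Agent.A2.Mod.H31.Deg
import Fermat.Agent.S24.FFFinite

/-!
# S36 / MOD3 leaf FF, core (helper933) — imports only files on main

For `x = j · j_q · j_{q²}` at level `N = M q q` over ANY intermediate field `E ⊆ ℚ̄`:
`x` is transcendental over `E`, `F = F_E(N)` is finite over `E(x)`, and `E` is algebraically
closed in `F`.  (`ffCore` = the body of `Mod3.LeafFF` with `x3E`, `PartFF` unfolded; no hypothesis
on `q`, `M` beyond `NeZero`.)

Route (as L8 of A2/Mod, helper31): `F ⊆ E((t))`; a Laurent series with a pole is transcendental,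
an algebraic Laurent series is constant; `[F : E(j)] = ψ(N)` (helper988) and the exchange
lemma of S24 give finiteness over `E(x)`.
-/

set_option autoImplicit false
set_option linter.style.haveILetI false
set_option linter.unusedSectionVars false
set_option synthInstance.maxHeartbeats 400000
set_option maxHeartbeats 1600000

noncomputable section

namespace Fermat.Agent.S36.Mod3.H933

open ModularCurve HahnSeries Polynomial IntermediateField
open Fermat.Agent.A2.Mod

variable (E : IntermediateField ℚ Fermat.Agent.A2.Mod.Qb)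

/-- transcendence passes from the `t`-expansion to `F_N`. -/
theorem transcendental_of_coe (N : ℕ) (f : FE E N)
    (hf : Transcendental E ((f : FE E N) : LaurentSeries E)) : Transcendental E f := by
  intro h
  exact hf ((isAlgebraic_algHom_iff (FE E N).val Subtype.val_injective).mpr h)

/-- an element of `F_N` algebraic over `E` is a constant (any level). -/
theorem mem_range_of_isAlgebraic (N : ℕ) (f : FE E N) (hf : IsAlgebraic E f) :
    f ∈ (algebraMap E (FE E N)).range := by
  have h2 : IsAlgebraic E ((f : FE E N) : LaurentSeries E) :=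
    (isAlgebraic_algHom_iff (FE E N).val Subtype.val_injective).mpr hf
  obtain ⟨c, hc⟩ := H31.laurent_const_of_isAlgebraic _ h2
  exact ⟨c, Subtype.ext hc.symm⟩

theorem transcendental_jE_one (N : ℕ) : Transcendental E (jE E N 1 (one_dvd _)) := by
  apply transcendental_of_coe
  rw [H31.coe_jE, qExpand_one_apply]
  exact H31.transcendental_jqModC E

/-- `F_N` is finite over `E(j)` (any level `N ≠ 0`). -/
theorem finiteDimensional_jE_one (N : ℕ) (hN : N ≠ 0) :
    FiniteDimensional (adjoin E ({jE E N 1 (one_dvd _)} : Set (FE E N))) (FE E N) := by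
  have hchar : ∀ p : ℕ, p.Prime → p ∣ N → ((p : ℕ) : E) ≠ 0 :=
    fun p hp _ => Nat.cast_ne_zero.mpr hp.ne_zero
  have h1 : adjoin E {jE E N 1 (one_dvd _)}
      = (adjoin E {((jE E N 1 (one_dvd _) : FE E N) : LaurentSeries E)}).comap
          (FE E N).val := by
    have h0 : (adjoin E {jE E N 1 (one_dvd _)}).map (FE E N).val
        = adjoin E {((jE E N 1 (one_dvd _) : FE E N) : LaurentSeries E)} := by
      rw [adjoin_map, Set.image_singleton]
      rfl
    rw [← h0, comap_map]
  have h2 : Module.finrank (adjoin E ({jE E N 1 (one_dvd _)} : Set (FE E N))) (FE E N)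
      = dedekindPsi N := by
    rw [h1, finrank_comap, fieldRange_val, H31.coe_jE, qExpand_one_apply, H31.FE_eq_fullC]
    exact S28.H988.relfinrank_jField_full_eq E N hN hchar
  apply Module.finite_of_finrank_pos
  rw [h2]
  exact S28.H988.dedekindPsi_pos N hN

/-- `F_N` is finite over `E(y)` for EVERY transcendental `y ∈ F_N` (any level `N ≠ 0`). -/
theorem finiteDimensional_of_transcendental (N : ℕ) (hN : N ≠ 0) (y : FE E N)
    (hy : Transcendental E y) :
    FiniteDimensional (adjoin E ({y} : Set (FE E N))) (FE E N) := by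
  haveI := finiteDimensional_jE_one E N hN
  exact Fermat.Agent.S24.FF.finiteDimensional_adjoin_of_transcendental
    (transcendental_jE_one E N) hy

variable (M q : ℕ) [NeZero M] [NeZero q] [NeZero (M * q)]

/-- `x = j j_q j_{q²}` has a pole at `t = 0`. -/
theorem order_x3_neg :
    (jqModC E * qExpand E q (jqModC E) * qExpand E (q * q) (jqModC E)).order < 0 := by
  have h1 := H31.order_jqModC_neg E
  have h2 := H31.order_qExpand_jqModC_neg E q
  have h3 := H31.order_qExpand_jqModC_neg E (q * q)
  have hj : jqModC E ≠ 0 := by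
    intro h
    rw [h] at h1
    simp at h1
  have hjq : qExpand E q (jqModC E) ≠ 0 := by
    intro h
    rw [h] at h2
    simp at h2
  have hjqq : qExpand E (q * q) (jqModC E) ≠ 0 := by
    intro h
    rw [h] at h3
    simp at h3
  rw [HahnSeries.order_mul (mul_ne_zero hj hjq) hjqq, HahnSeries.order_mul hj hjq]
  omega

/-- `x = j j_q j_{q²}` is transcendental over `E`. -/
theorem transcendental_x3 (h1 : 1 ∣ M * q * q) (hq : q ∣ M * q * q) (hqq : q * q ∣ M * q * q) :
    Transcendental E (jE E (M * q * q) 1 h1 * jE E (M * q * q) q hq *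
      jE E (M * q * q) (q * q) hqq) := by
  apply transcendental_of_coe
  rw [MulMemClass.coe_mul, MulMemClass.coe_mul, H31.coe_jE, H31.coe_jE, H31.coe_jE,
    qExpand_one_apply]
  exact H31.transcendental_of_order_neg (order_x3_neg E q)

/-- **Leaf FF, unfolded.**  The three fields of `Mod3.PartFF E (Mod3.x3E E M q)`. -/
theorem ffCore (h1 : 1 ∣ M * q * q) (hq : q ∣ M * q * q) (hqq : q * q ∣ M * q * q) :
    Transcendental E (jE E (M * q * q) 1 h1 * jE E (M * q * q) q hq *
        jE E (M * q * q) (q * q) hqq) ∧
      FiniteDimensional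
        (adjoin E ({jE E (M * q * q) 1 h1 * jE E (M * q * q) q hq *
          jE E (M * q * q) (q * q) hqq} : Set (FE E (M * q * q)))) (FE E (M * q * q)) ∧
      ∀ f : FE E (M * q * q), IsAlgebraic E f → f ∈ (algebraMap E (FE E (M * q * q))).range := by
  have hN : M * q * q ≠ 0 := mul_ne_zero (NeZero.ne (M * q)) (NeZero.ne q)
  exact ⟨transcendental_x3 E M q h1 hq hqq,
    finiteDimensional_of_transcendental E (M * q * q) hN _ (transcendental_x3 E M q h1 hq hqq),
    mem_range_of_isAlgebraic E (M * q * q)⟩

end Fermat.Agent.S36.Mod3.H933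

end
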