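import Fermat.Agent.S36.Mod3.Spec
import Fermat.Agent.S36.Mod3.H933.FFCore

/-!
# S36 / MOD3 leaf FF (helper933): `leafFF : Mod3.LeafFF` VERBATIM

One-line adapter from `H933.ffCore` (unfolded form, `FFCore.lean`).
-/

set_option autoImplicit false

noncomputable section

namespace Fermat.Agent.S36.Mod3.H933

/-- **Leaf FF.** -/
theorem leafFF : LeafFF := by
  intro E M q _ _ _ _hq _hqM
  obtain ⟨h1, h2, h3⟩ := ffCore E M q (one_dvd _) (Dvd.intro_left (M * q) rfl) ⟨M, by ring⟩
  exact ⟨h1, h2, h3⟩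

end Fermat.Agent.S36.Mod3.H933

end
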